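import Mathlib
import Fermat.Agent.LT.T7.H281.TranslEig
import Fermat.Agent.LT.T7.H281.LevelInv
import Fermat.Agent.LT.T7.H144.TranslInv
import Fermat.Agent.LT.T1.H309.AdNorm

/-!
# Row LT, tower T7, leaf T7.L2.2.B1.W3 `IwTranslC144` (helper420, SPARE of registry row 2450): core

OFF-MAIN.  `iwTransl_core420 K` = the body of `H144W.IwTranslC144 K` (cut of helper144,
`LT/T7/H144/WSpecCut.lean` b4ddb868), stated on the vocabulary of `T7/Level2.lean` only, so
that the core does not import the tower T2.  No hole, nothing assumed.  ADDITIVE (new names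
only, all ending in `420`, namespace `Fermat.Agent.LT.T7.H420W`).

Proof.
* eigenfunctions: `translEigC281` (helper281, closed) for the one-element family `{i}`, `c = 1`;
  the translate is right invariant under `U(𝔫)` because `i` normalises `U(𝔫)`
  (`inLevelGroup_conj420`: `i⁻¹ u i - 1 = i⁻¹ (u - 1) i`, `i` and `i⁻¹` are integral at every
  finite place and the closure of `𝔫` in `𝒪_v` is an ideal, helper439);
* inner product: `translInv_core144f` (helper144, closed) for `Φ = ψ conj χ`, with the closed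
  leaf `adNormC309` of T1;
* inverse: components (`inIwahori_inv340`, helper340).
-/

set_option autoImplicit false
set_option linter.unusedSectionVars false
set_option linter.unusedVariables false
set_option linter.style.haveILetI false

open AutomorphicForm IsDedekindDomain NumberField MeasureTheory
open scoped ComplexConjugate

noncomputable section

namespace Fermat.Agent.LT.T7.H420W

open Fermat.Agent.LT.H556 Fermat.Agent.LT.H556.A0 Fermat.Agent.LT Fermat.Agent.LT.T7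
open Fermat.Agent.LT.H129

attribute [local instance] Fermat.Agent.LT.T5.instMeasurableSpaceG

variable {K : Type} [Field K] [NumberField K]

/-! ## 1. Components -/

theorem finComp_one420 (v : HeightOneSpectrum (𝓞 K)) :
    finComp v (1 : G K) = 1 := by
  rw [← coe_finCompHom129, map_one]
  rfl

theorem finComp_inv_mul420 (v : HeightOneSpectrum (𝓞 K)) (i : G K) :
    finComp v i⁻¹ * finComp v i = 1 := by
  rw [← H271.finComp_mul271, inv_mul_cancel, finComp_one420]

/-- `i⁻¹ (u - 1) i` has its entries in the closure of `𝔫` if `u - 1` has and `i`, `i⁻¹` are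
integral. -/
theorem conj_entry420 {𝔫 : Ideal (𝓞 K)} (v : HeightOneSpectrum (𝓞 K)) {i u : G K}
    (hi : IsIntegralAt v i) (hi' : IsIntegralAt v i⁻¹)
    (hu : ∀ a b, (finComp v u - 1) a b ∈ idealClosure 𝔫 v) (a b : Fin 2) :
    (finComp v (i⁻¹ * u * i) - 1) a b ∈ idealClosure 𝔫 v := by
  have e : finComp v (i⁻¹ * u * i) - 1 = finComp v i⁻¹ * (finComp v u - 1) * finComp v i := by
    rw [H271.finComp_mul271, H271.finComp_mul271, Matrix.mul_sub, Matrix.sub_mul, Matrix.mul_one,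
      finComp_inv_mul420]
  have hI : ∀ a b, Valued.v (finComp v i a b) ≤ 1 := fun a b =>
    (HeightOneSpectrum.mem_adicCompletionIntegers _ _ _).1 (hi a b)
  have hI' : ∀ a b, Valued.v (finComp v i⁻¹ a b) ≤ 1 := fun a b =>
    (HeightOneSpectrum.mem_adicCompletionIntegers _ _ _).1 (hi' a b)
  have hterm : ∀ j k : Fin 2,
      finComp v i⁻¹ a j * (finComp v u - 1) j k * finComp v i k b ∈ idealClosure 𝔫 v := by
    intro j k
    have h1 := H439.ic_mul_int439 𝔫 v (hI' a j) (hu j k)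
    have h2 := H439.ic_mul_int439 𝔫 v (hI k b) h1
    rwa [mul_comm] at h2
  rw [e, Matrix.mul_apply, Fin.sum_univ_two, Matrix.mul_apply, Matrix.mul_apply,
    Fin.sum_univ_two, Fin.sum_univ_two, add_mul, add_mul]
  exact H439.ic_add439 𝔫 v
    (H439.ic_add439 𝔫 v (hterm 0 0) (hterm 1 0))
    (H439.ic_add439 𝔫 v (hterm 0 1) (hterm 1 1))

/-- An element which is trivial at infinity and integral with integral inverse at every finite
place normalises `U(𝔫)`. -/
theorem inLevelGroup_conj420 {𝔫 : Ideal (𝓞 K)} {i u : G K}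
    (hinf : ∀ w : InfinitePlace K, TrivAtInf w i)
    (hint : ∀ v : HeightOneSpectrum (𝓞 K), IsIntegralAt v i ∧ IsIntegralAt v i⁻¹)
    (hu : InLevelGroup 𝔫 u) : InLevelGroup 𝔫 (i⁻¹ * u * i) := by
  refine ⟨fun w => ?_, fun v a b => ⟨?_, ?_⟩⟩
  · rw [trivAtInf_iff129, map_mul, map_mul, map_inv, (trivAtInf_iff129 w i).1 (hinf w),
      (trivAtInf_iff129 w u).1 (hu.1 w), inv_one, one_mul, one_mul]
  · exact conj_entry420 v (hint v).1 (hint v).2 (fun a b => (hu.2 v a b).1) a b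
  · have e : (i⁻¹ * u * i)⁻¹ = i⁻¹ * u⁻¹ * i := by group
    rw [e]
    exact conj_entry420 v (hint v).1 (hint v).2 (fun a b => (hu.2 v a b).2) a b

/-! ## 2. The hypotheses of `IwTranslC144` on `i` -/

section Iw

variable {𝔫 : Ideal (𝓞 K)} {l : ℕ} {o : ℕ → HeightOneSpectrum (𝓞 K)} {i : G K}

/-- `i` is integral with integral inverse at every finite place. -/
theorem integral_of_iw420
    (h2 : ∀ v : HeightOneSpectrum (𝓞 K), (∀ j < l, v ≠ o j) → TrivAtFin v i)
    (h3 : ∀ j < l, T5.InIwahori (o j) i) (v : HeightOneSpectrum (𝓞 K)) :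
    IsIntegralAt v i ∧ IsIntegralAt v i⁻¹ := by
  by_cases hv : ∀ j < l, v ≠ o j
  · exact H281.isIntegralAt_of_triv281 (h2 v hv)
  · obtain ⟨j, hj, hjv⟩ : ∃ j, j < l ∧ v = o j := by
      by_contra hcon
      exact hv (fun j hj hvj => hcon ⟨j, hj, hvj⟩)
    subst hjv
    exact ⟨(h3 j hj).1, (h3 j hj).2.1⟩

/-- `i` is a good translation for the level `𝔫`. -/
theorem good_of_iw420 (h1 : ∀ w : InfinitePlace K, TrivAtInf w i)
    (h2 : ∀ v : HeightOneSpectrum (𝓞 K), (∀ j < l, v ≠ o j) → TrivAtFin v i)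
    (h3 : ∀ j < l, T5.InIwahori (o j) i) : H281.IsGoodTransl281 𝔫 i :=
  ⟨h1, fun v _ => integral_of_iw420 h2 h3 v⟩

/-- The three conditions are stable under inversion. -/
theorem inv_of_iw420 (h1 : ∀ w : InfinitePlace K, TrivAtInf w i)
    (h2 : ∀ v : HeightOneSpectrum (𝓞 K), (∀ j < l, v ≠ o j) → TrivAtFin v i)
    (h3 : ∀ j < l, T5.InIwahori (o j) i) :
    (∀ w : InfinitePlace K, TrivAtInf w i⁻¹) ∧
      (∀ v : HeightOneSpectrum (𝓞 K), (∀ j < l, v ≠ o j) → TrivAtFin v i⁻¹) ∧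
      ∀ j < l, T5.InIwahori (o j) i⁻¹ := by
  refine ⟨fun w => ?_, fun v hv => ?_, fun j hj => H340.inIwahori_inv340 (h3 j hj)⟩
  · rw [trivAtInf_iff129, map_inv, (trivAtInf_iff129 w i).1 (h1 w), inv_one]
  · rw [trivAtFin_iff129, map_inv, (trivAtFin_iff129 v i).1 (h2 v hv), inv_one]

end Iw

/-! ## 3. The translate of an eigenfunction -/

theorem translOp_single420 [DecidableEq (G K)] (i : G K) (ψ : G K → ℂ) :
    H281.translOp281 {i} 1 ψ = fun x => ψ (x * i) := by
  funext x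
  simp only [H281.translOp281, one_mul, Finset.sum_singleton]

/-- An element which is trivial at every place is `1`. -/
theorem eq_one_of_triv420 {h : G K} (hinf : ∀ w : InfinitePlace K, TrivAtInf w h)
    (hfin : ∀ v : HeightOneSpectrum (𝓞 K), TrivAtFin v h) : h = 1 := by
  apply G_ext129
  · intro w
    rw [(trivAtInf_iff129 w h).1 (hinf w), map_one]
  · intro v
    rw [(trivAtFin_iff129 v h).1 (hfin v), map_one]

/-- The Iwahori condition along the empty orbit is empty. -/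
theorem isIwInv_zero420 (o : ℕ → HeightOneSpectrum (𝓞 K)) (φ : G K → ℂ) : IsIwInv 0 o φ := by
  intro h hinf hfin _ x
  have e : h = 1 := eq_one_of_triv420 hinf (fun v => hfin v (fun j hj => absurd hj (Nat.not_lt_zero j)))
  rw [e, mul_one]

theorem isEigFn_transl420 {𝔫 : Ideal (𝓞 K)} {r : G K} (hr : T5.IsRayGen r) {l : ℕ}
    {o : ℕ → HeightOneSpectrum (𝓞 K)} {i : G K}
    (h1 : ∀ w : InfinitePlace K, TrivAtInf w i)
    (h2 : ∀ v : HeightOneSpectrum (𝓞 K), (∀ j < l, v ≠ o j) → TrivAtFin v i)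
    (h3 : ∀ j < l, T5.InIwahori (o j) i)
    {ψ : G K → ℂ} {C : EigData K} (hψ : IsEigFn 𝔫 r 0 o ψ C) :
    IsEigFn 𝔫 r 0 o (fun x => ψ (x * i)) C := by
  classical
  have key := H281.translEigC281 K 𝔫 r 0 o hr {i} 1
    (fun t ht => by
      rw [Finset.mem_singleton] at ht
      rw [ht]
      exact good_of_iw420 h1 h2 h3) ψ C hψ
  rw [translOp_single420] at key
  refine key ?_ (isIwInv_zero420 o _)
  intro u hu x
  show ψ (x * u * i) = ψ (x * i)
  have e : x * u * i = x * i * (i⁻¹ * u * i) := by group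
  rw [e]
  exact hψ.inv.cusp.aut.level_inv _
    (inLevelGroup_conj420 h1 (integral_of_iw420 h2 h3) hu) _

/-! ## 4. The inner product -/

theorem innerD_transl420 {μ : Measure (G K)} {F : Set (G K)} (hF : T5.IsFrame μ F) {r : G K}
    (hr : T5.IsRayGen r) {𝔫 : Ideal (𝓞 K)} {o : ℕ → HeightOneSpectrum (𝓞 K)} {ψ χ : G K → ℂ}
    (hψ : IsWFn 𝔫 r 0 o ψ) (hχ : IsWFn 𝔫 r 0 o χ) (i : G K) :
    T5.innerD μ F (fun x => ψ (x * i)) (fun x => χ (x * i)) = T5.innerD μ F ψ χ := by
  unfold T5.innerD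
  exact H144.translInv_core144f (T1.H309.adNormC309 K) hF hr (fun x => ψ x * conj (χ x))
    (fun γ x => by
      show ψ (T5.ratG γ * x) * conj (χ (T5.ratG γ * x)) = ψ x * conj (χ x)
      rw [hψ.cusp.aut.left_inv, hχ.cusp.aut.left_inv])
    (fun x => by
      show ψ (x * r) * conj (χ (x * r)) = ψ x * conj (χ x)
      rw [hψ.cusp.aut.ray, hχ.cusp.aut.ray]) i

/-! ## 5. The leaf, on the vocabulary of `T7/Level2.lean` -/

/-- **LEAF W3 = IW-TRANSL**, the body of `H144W.IwTranslC144 K`. -/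
theorem iwTransl_core420 (K : Type) [Field K] [NumberField K] :
    ∀ 𝔫 : Ideal (𝓞 K), 𝔫 ≠ ⊥ → ∀ R : Frame5 K, IsFrame5 R →
    ∀ (l : ℕ) (o : ℕ → HeightOneSpectrum (𝓞 K)), (∀ j < l, (o j).asIdeal ∣ 𝔫) →
    ∀ i : G K, (∀ w : InfinitePlace K, TrivAtInf w i) →
      (∀ v : HeightOneSpectrum (𝓞 K), (∀ j < l, v ≠ o j) → TrivAtFin v i) →
      (∀ j < l, T5.InIwahori (o j) i) →
      (∀ (ψ : G K → ℂ) (C : EigData K), IsEigFn 𝔫 R.r 0 o ψ C →
        IsEigFn 𝔫 R.r 0 o (fun x => ψ (x * i)) C) ∧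
      (∀ ψ χ : G K → ℂ, IsWFn 𝔫 R.r 0 o ψ → IsWFn 𝔫 R.r 0 o χ →
        T5.innerD R.μ R.F (fun x => ψ (x * i)) (fun x => χ (x * i))
          = T5.innerD R.μ R.F ψ χ) ∧
      ((∀ w : InfinitePlace K, TrivAtInf w i⁻¹) ∧
        (∀ v : HeightOneSpectrum (𝓞 K), (∀ j < l, v ≠ o j) → TrivAtFin v i⁻¹) ∧
        ∀ j < l, T5.InIwahori (o j) i⁻¹) := by
  intro 𝔫 _ R hR l o _ i h1 h2 h3
  exact ⟨fun ψ C hψ => isEigFn_transl420 hR.ray h1 h2 h3 hψ,
    fun ψ χ hψ hχ => innerD_transl420 hR.frame hR.ray hψ hχ i,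
    inv_of_iw420 h1 h2 h3⟩

end Fermat.Agent.LT.T7.H420W

end
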