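import Mathlib
import Fermat.Agent.LT.T7.H216.BoxSpec

/-!
# Row LT, tower T7, leaf T7.14.6a-F.6.2 `IdeleRayC216` (helper420), OFF-MAIN

A continuous section of the idele norm over `(0, ∞)`: the ray
`s ↦ (s^{1/n}, …, s^{1/n}; 1, 1, …)`, `n = [K : ℚ]` (the real number `s^{1/n} = exp(log s / n)` at
every infinite place, `1` at every finite place).  Its module is `∏_w (s^{1/n})^{[K_w : ℝ]} = s`.
The real numbers are embedded in the completion at an infinite place through the extension
embedding (an isometry), so the ray is continuous for the topology of the units of the adele ring.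

UNCONDITIONAL.  Mathlib + the spec closure of `LT/T7/H216/BoxSpec.lean` only.
-/

set_option autoImplicit false

open IsDedekindDomain NumberField

noncomputable section

namespace Fermat.Agent.LT.T7.H420

open Fermat.Agent.LT.H556.A0 Fermat.Agent.LT.T7.H57 Fermat.Agent.LT.T7.H216

variable (K : Type) [Field K] [NumberField K]

open InfinitePlace.Completion in
/-- Every real number is in the image of the extension embedding of an infinite place. -/
theorem exists_extEmb_real420 (w : InfinitePlace K) (t : ℝ) :
    ∃ x : w.Completion, extensionEmbedding w x = (t : ℂ) := by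
  rcases w.isReal_or_isComplex with hw | hw
  · obtain ⟨x, hx⟩ := surjective_extensionEmbeddingOfIsReal hw t
    exact ⟨x, by rw [← extensionEmbeddingOfIsReal_apply hw, hx]⟩
  · exact surjective_extensionEmbedding_of_isComplex hw _

/-- The norm of an element of the completion at an infinite place is the absolute value of its
image under the extension embedding. -/
theorem norm_eq_norm_extEmb420 (w : InfinitePlace K) (x : w.Completion) :
    ‖x‖ = ‖InfinitePlace.Completion.extensionEmbedding w x‖ := by
  have h := (InfinitePlace.Completion.isometry_extensionEmbedding w).norm_map_of_map_zero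
    (map_zero _) x
  exact h.symm

/-- The element of the completion at `w` which is the real number `s`. -/
def realAt420 (w : InfinitePlace K) (s : ℝ) : w.Completion :=
  (exists_extEmb_real420 K w s).choose

theorem extEmb_realAt420 (w : InfinitePlace K) (s : ℝ) :
    InfinitePlace.Completion.extensionEmbedding w (realAt420 K w s) = (s : ℂ) :=
  (exists_extEmb_real420 K w s).choose_spec

theorem norm_realAt420 (w : InfinitePlace K) (s : ℝ) : ‖realAt420 K w s‖ = |s| := by
  rw [norm_eq_norm_extEmb420, extEmb_realAt420, Complex.norm_real, Real.norm_eq_abs]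

theorem realAt_mul420 (w : InfinitePlace K) (s t : ℝ) :
    realAt420 K w s * realAt420 K w t = realAt420 K w (s * t) := by
  apply (InfinitePlace.Completion.extensionEmbedding w).injective
  rw [map_mul, extEmb_realAt420, extEmb_realAt420, extEmb_realAt420]
  push_cast
  rfl

theorem realAt_one420 (w : InfinitePlace K) : realAt420 K w 1 = 1 := by
  apply (InfinitePlace.Completion.extensionEmbedding w).injective
  rw [extEmb_realAt420, map_one]
  push_cast
  rfl

theorem realAt_sub420 (w : InfinitePlace K) (s t : ℝ) :
    realAt420 K w s - realAt420 K w t = realAt420 K w (s - t) := by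
  apply (InfinitePlace.Completion.extensionEmbedding w).injective
  rw [map_sub, extEmb_realAt420, extEmb_realAt420, extEmb_realAt420]
  push_cast
  rfl

/-- The embedding of the real numbers in the completion at an infinite place is an isometry. -/
theorem isometry_realAt420 (w : InfinitePlace K) : Isometry (realAt420 K w) := by
  refine Isometry.of_dist_eq fun s t => ?_
  rw [dist_eq_norm, realAt_sub420, norm_realAt420, Real.dist_eq]

theorem continuous_realAt420 (w : InfinitePlace K) : Continuous (realAt420 K w) :=
  (isometry_realAt420 K w).continuous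

/-- The adele with components `s` at the infinite places and `1` at the finite places. -/
def rayAdele420 (s : ℝ) : Adl K := ((fun w => realAt420 K w s), 1)

theorem rayAdele_mul420 (s t : ℝ) : rayAdele420 K s * rayAdele420 K t = rayAdele420 K (s * t) := by
  refine Prod.ext ?_ ?_
  · funext w
    exact realAt_mul420 K w s t
  · show (1 : FiniteAdeleRing (𝓞 K) K) * 1 = 1
    rw [one_mul]

theorem rayAdele_one420 : rayAdele420 K 1 = 1 := by
  refine Prod.ext ?_ ?_
  · funext w
    exact realAt_one420 K w
  · rfl

theorem continuous_rayAdele420 : Continuous (rayAdele420 K) := by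
  have h1 : Continuous fun s : ℝ => (fun w : InfinitePlace K => realAt420 K w s) :=
    continuous_pi fun w => continuous_realAt420 K w
  exact Continuous.prodMk h1 continuous_const

/-- The ray idele of parameter `u`: `exp u` at the infinite places, `1` at the finite places. -/
def rayIdele420 (u : ℝ) : (Adl K)ˣ where
  val := rayAdele420 K (Real.exp u)
  inv := rayAdele420 K (Real.exp (-u))
  val_inv := by rw [rayAdele_mul420, ← Real.exp_add, add_neg_cancel, Real.exp_zero, rayAdele_one420]
  inv_val := by rw [rayAdele_mul420, ← Real.exp_add, neg_add_cancel, Real.exp_zero, rayAdele_one420]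

theorem continuous_rayIdele420 : Continuous (rayIdele420 K) := by
  rw [Units.continuous_iff]
  refine ⟨?_, ?_⟩
  · exact (continuous_rayAdele420 K).comp Real.continuous_exp
  · exact (continuous_rayAdele420 K).comp (Real.continuous_exp.comp continuous_neg)

/-- The module of the ray idele. -/
theorem nrm_rayIdele420 (u : ℝ) :
    nrm57 K (rayIdele420 K u) = Real.exp u ^ Module.finrank ℚ K := by
  unfold nrm57 Fermat.Agent.LT.T5.adNorm
  have h1 : ∀ w : InfinitePlace K,
      ‖((rayIdele420 K u : (Adl K)ˣ) : Adl K).1 w‖ = Real.exp u := by
    intro w
    show ‖realAt420 K w (Real.exp u)‖ = Real.exp u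
    rw [norm_realAt420, abs_of_pos (Real.exp_pos u)]
  have h2 : ∀ v : HeightOneSpectrum (𝓞 K),
      ‖((rayIdele420 K u : (Adl K)ˣ) : Adl K).2 v‖ = 1 := by
    intro v
    show ‖(1 : v.adicCompletion K)‖ = 1
    exact norm_one
  simp only [h1, h2, finprod_one, mul_one]
  rw [Finset.prod_pow_eq_pow_sum, InfinitePlace.sum_mult_eq]

/-- **T7.14.6a-F.6.2 `IdeleRayC216`**: a continuous section of the idele norm over `(0, ∞)`. -/
theorem ideleRayC420 : IdeleRayC216 K := by
  have hn : (Module.finrank ℚ K : ℝ) ≠ 0 := by
    have : 0 < Module.finrank ℚ K := Module.finrank_pos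
    exact_mod_cast this.ne'
  refine ⟨fun s => rayIdele420 K (Real.log s / Module.finrank ℚ K), ?_, ?_⟩
  · have h1 : ContinuousOn (fun s : ℝ => Real.log s / Module.finrank ℚ K) (Set.Ioi 0) := by
      refine ContinuousOn.div_const ?_ _
      exact Real.continuousOn_log.mono fun s hs => ne_of_gt hs
    exact (continuous_rayIdele420 K).comp_continuousOn h1
  · intro s hs
    rw [nrm_rayIdele420, ← Real.exp_nat_mul, mul_div_cancel₀ _ hn, Real.exp_log hs]

end Fermat.Agent.LT.T7.H420

end
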